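/-
Program G (S56), block GW-Euler, node (UNIT-BRIDGE), part 1 (UB-1).  helper7.
For a finite extension `F/ℚ` inside `Qb = ℚ̄`, unramified outside `T`, the `T`-units of the fixed
field of `N = Gal(ℚ̄/F)` in the valuation-subring language of `valES` (helper17's `tUnits T N`)
are the `S`-units of the number field `↥F` for `S` = the primes of `𝓞 F` above `T`
(Mathlib's `Set.unit`, the carrier of main's `HerbrandSUnits`).
-/
import Fermat.Agent.TW.Euler.Kummer.KummerMap
import Fermat.Agent.CFT.Global.IdeleDict.DictContent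
import Fermat.Agent.CFT.Global.FirstIneqEmb
import Fermat.Agent.CFT.Global.ClassLayerInvQ

set_option autoImplicit false
set_option linter.unusedSectionVars false
set_option linter.style.haveILetI false

open NumberField IsDedekindDomain
open Fermat.Agent.CFT Fermat.Agent.CFT.IdeleDict Fermat.Agent.S55

namespace Fermat.Agent.TW.Euler.UnitBridge

local notation "Qb" => AlgebraicClosure ℚ
local notation "GQ" => (AlgebraicClosure ℚ ≃ₐ[ℚ] AlgebraicClosure ℚ)

open Fermat.Agent.TW.Euler.Kummer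

variable (F : IntermediateField ℚ Qb) [NumberField F]

/-- **Local dictionary**: for `x ∈ F`, `x` is a unit at every valuation subring of `ℚ̄` over `q`
iff it is a unit at every prime of `𝓞 F` containing `q`. -/
theorem forall_valuation_eq_one_iff (q : Nat.Primes) (x : F) :
    (∀ A : ValuationSubring Qb, A.LiesOverPrime (q : ℕ) → A.valuation ((x : F) : Qb) = 1) ↔
      ∀ P : HeightOneSpectrum (𝓞 F), ((q : ℕ) : 𝓞 F) ∈ P.asIdeal → P.valuation F x = 1 := by
  haveI halg : Algebra.IsAlgebraic ℚ Qb := (AlgebraicClosure.instIsAlgClosure ℚ).isAlgebraic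
  haveI : Algebra.IsAlgebraic F Qb := Algebra.IsAlgebraic.tower_top (K := ℚ) F
  constructor
  · intro h P hP
    have := P.isPrime
    obtain ⟨τ, hτ⟩ := exists_primeOf_eq (q := (q : ℕ)) P.asIdeal hP
    have hPτ : primeOfH τ = P := HeightOneSpectrum.ext hτ
    obtain ⟨τ', rfl⟩ := FirstIneq.resEmb_surjective (q := (q : ℕ)) (K := F) (L := Qb) τ
    have h1 := h (embPlace τ') (embPlace_liesOverPrime τ')
    rw [embPlace_valuation_eq_one_iff] at h1
    rw [← hPτ, ← norm_emb_eq_one_iff]
    exact h1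
  · intro h A hA
    refine valuation_eq_one_of_forall_norm_emb_eq_one A hA (fun τ' => ?_)
    have h1 := (norm_emb_eq_one_iff (FirstIneq.resEmb F τ') x).2
      (h _ (natCast_mem_primeOf (FirstIneq.resEmb F τ')))
    exact h1

variable (T : Finset Nat.Primes)

/-- A prime of `𝓞 F` outside the primes above `T` contains a rational prime outside `T`. -/
theorem exists_prime_notMem {P : HeightOneSpectrum (𝓞 F)}
    (hP : P ∉ primesOver F (↑T : Set Nat.Primes)) :
    ∃ q : Nat.Primes, q ∉ T ∧ ((q : ℕ) : 𝓞 F) ∈ P.asIdeal := by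
  obtain ⟨q, hq⟩ := exists_prime_mem P
  exact ⟨q, fun hqT => hP ⟨q, Finset.mem_coe.2 hqT, hq⟩, hq⟩

/-- A prime of `𝓞 F` containing a rational prime outside `T` is not above `T`. -/
theorem notMem_primesOver {q : Nat.Primes} (hq : q ∉ T) {P : HeightOneSpectrum (𝓞 F)}
    (hP : ((q : ℕ) : 𝓞 F) ∈ P.asIdeal) : P ∉ primesOver F (↑T : Set Nat.Primes) := by
  rintro ⟨q', hq', hmem⟩
  have : q' = q := prime_unique P hmem hP
  exact hq (Finset.mem_coe.1 (this ▸ hq'))

/-- An element of `ℚ̄` fixed by `Gal(ℚ̄/F)` lies in `F`. -/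
theorem mem_of_fixed {x : Qb} (h : ∀ σ ∈ F.fixingSubgroup, σ x = x) : x ∈ F := by
  have : IsGalois ℚ Qb := Fermat.Agent.S54.FrobExists.isGalois_rat_algebraicClosure
  have hmem : x ∈ IntermediateField.fixedField F.fixingSubgroup := by
    rw [IntermediateField.mem_fixedField_iff]
    exact h
  rwa [InfiniteGalois.fixedField_fixingSubgroup] at hmem

theorem fixed_of_mem {x : Qb} (hx : x ∈ F) {σ : GQ} (hσ : σ ∈ F.fixingSubgroup) : σ x = x :=
  (IntermediateField.mem_fixingSubgroup_iff _ _).1 hσ x hx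

/-- **(UB-1, membership)** `u ∈ tUnits T Gal(ℚ̄/F)` iff `u ∈ F` and `u` is a unit outside the
primes of `𝓞 F` above `T`. -/
theorem mem_tUnits_iff (hF : F.IsUnramifiedOutside T) (u : Qbˣ) :
    u ∈ tUnits T F.fixingSubgroup ↔ ∃ h : (u : Qb) ∈ F,
      ∀ P : HeightOneSpectrum (𝓞 F), P ∉ primesOver F (↑T : Set Nat.Primes) →
        P.valuation F (⟨(u : Qb), h⟩ : F) = 1 := by
  constructor
  · rintro ⟨hu, hfix⟩
    refine ⟨mem_of_fixed F hfix, fun P hP => ?_⟩
    obtain ⟨q, hqT, hqP⟩ := exists_prime_notMem F T hP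
    exact (forall_valuation_eq_one_iff F q ⟨(u : Qb), mem_of_fixed F hfix⟩).1
      ((mem_valES_iff.1 hu).2 q hqT) P hqP
  · rintro ⟨h, hval⟩
    refine ⟨mem_valES_iff.2 ⟨le_QS_of_isUnramifiedOutside hF h, fun q hq A hA => ?_⟩,
      fun σ hσ => fixed_of_mem F h hσ⟩
    exact (forall_valuation_eq_one_iff F q ⟨(u : Qb), h⟩).2
      (fun P hP => hval P (notMem_primesOver F T hq hP)) A hA

/-- **(UB-1)** the `T`-units of the fixed field of `Gal(ℚ̄/F)` (helper17's `tUnits`) are the
`S`-units of the number field `↥F`, `S` = primes above `T`. -/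
noncomputable def tUnitsEquiv (hF : F.IsUnramifiedOutside T) :
    tUnits T F.fixingSubgroup ≃* (primesOver F (↑T : Set Nat.Primes)).unit F where
  toFun u := ⟨Units.mk0 (⟨((u : Qbˣ) : Qb), ((mem_tUnits_iff F T hF u).1 u.2).1⟩ : F)
      (fun h0 => (u : Qbˣ).ne_zero (congrArg Subtype.val h0)),
    fun P hP => ((mem_tUnits_iff F T hF u).1 u.2).2 P hP⟩
  invFun y := ⟨Units.map (algebraMap F Qb : F →* Qb) (y : Fˣ),
    (mem_tUnits_iff F T hF _).2 ⟨(((y : Fˣ) : F)).2, fun P hP => y.2 P hP⟩⟩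
  left_inv u := by
    apply Subtype.ext
    apply Units.ext
    rfl
  right_inv y := by
    apply Subtype.ext
    apply Units.ext
    apply Subtype.ext
    rfl
  map_mul' u v := by
    apply Subtype.ext
    apply Units.ext
    apply Subtype.ext
    rfl

@[simp]
theorem coe_tUnitsEquiv (hF : F.IsUnramifiedOutside T) (u : tUnits T F.fixingSubgroup) :
    ((((tUnitsEquiv F T hF u : (primesOver F (↑T : Set Nat.Primes)).unit F) : Fˣ) : F) : Qb) =
      ((u : Qbˣ) : Qb) := rfl

@[simp]
theorem coe_tUnitsEquiv_symm (hF : F.IsUnramifiedOutside T)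
    (y : (primesOver F (↑T : Set Nat.Primes)).unit F) :
    ((((tUnitsEquiv F T hF).symm y : tUnits T F.fixingSubgroup) : Qbˣ) : Qb) =
      (((y : Fˣ) : F) : Qb) := rfl

end Fermat.Agent.TW.Euler.UnitBridge
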