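/-
Program G (S56), block GW-Euler, node (UNIT-BRIDGE), part 2 (UB-2, UB-3).  helper7.
* (UB-2) for number fields `K ⊆ L`: the primes of `L` above (the primes of `K` above `T`) are the
  primes of `L` above `T` (main's `HerbrandSUnits.primesAbove` vs `IdeleDict.primesOver`);
* (UB-3) the bundle `L := ↥F`, `K := ↥K'` (`K' : IntermediateField ℚ ↥F`): helper17's
  `tUnits T Gal(ℚ̄/F)` is helper18's carrier `(primesAbove K L (primesOver K T)).unit L`,
  equivariantly: the action of `t ∈ G_ℚ` (through `Units.map t`) corresponds to `sUnitGal _ g` for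
  every `g ∈ Gal(F/K')` that is the restriction of `t`.
-/
import Fermat.Agent.TW.Euler.UnitBridge.Basic
import Fermat.Agent.CFT.Global.HerbrandSUnits

set_option autoImplicit false
set_option linter.unusedSectionVars false
set_option linter.style.haveILetI false

open NumberField IsDedekindDomain
open Fermat.Agent.CFT Fermat.Agent.CFT.IdeleDict Fermat.Agent.CFT.HerbrandSUnits Fermat.Agent.S55

namespace Fermat.Agent.TW.Euler.UnitBridge

local notation "Qb" => AlgebraicClosure ℚ
local notation "GQ" => (AlgebraicClosure ℚ ≃ₐ[ℚ] AlgebraicClosure ℚ)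

open Fermat.Agent.TW.Euler.Kummer

section UB2

variable (K L : Type) [Field K] [NumberField K] [Field L] [NumberField L] [Algebra K L]
  [IsGalois K L]

/-- **(UB-2)** primes of `L` above the primes of `K` above `T` = primes of `L` above `T`. -/
theorem primesAbove_primesOver (T : Set Nat.Primes) :
    primesAbove K L (primesOver K T) = primesOver L T := by
  ext w
  rw [mem_primesAbove_iff]
  constructor
  · rintro ⟨q, hq, hmem⟩
    refine ⟨q, hq, ?_⟩
    have h1 : algebraMap (𝓞 K) (𝓞 L) ((q : ℕ) : 𝓞 K) ∈ w.asIdeal := hmem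
    rwa [map_natCast] at h1
  · rintro ⟨q, hq, hmem⟩
    refine ⟨q, hq, ?_⟩
    show algebraMap (𝓞 K) (𝓞 L) ((q : ℕ) : 𝓞 K) ∈ w.asIdeal
    rwa [map_natCast]

end UB2

section UB3

variable (F : IntermediateField ℚ Qb) [NumberField F] [IsGalois ℚ F]
  (K' : IntermediateField ℚ F) (T : Finset Nat.Primes)

/-- **(UB-3)** helper17's `T`-units of `F = Qb^N` as helper18's `T_K`-units of `L = ↥F` over
`K = ↥K'`. -/
noncomputable def tUnitsEquivRel (hF : F.IsUnramifiedOutside T) :
    tUnits T F.fixingSubgroup ≃*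
      (primesAbove K' F (primesOver K' (↑T : Set Nat.Primes))).unit F :=
  (tUnitsEquiv F T hF).trans
    (MulEquiv.subgroupCongr (congrArg (fun S : Set (HeightOneSpectrum (𝓞 F)) => S.unit F)
      (primesAbove_primesOver K' F (↑T : Set Nat.Primes)).symm))

@[simp]
theorem coe_tUnitsEquivRel (hF : F.IsUnramifiedOutside T) (u : tUnits T F.fixingSubgroup) :
    ((((tUnitsEquivRel F K' T hF u :
      (primesAbove K' F (primesOver K' (↑T : Set Nat.Primes))).unit F) : Fˣ) : F) : Qb) =
      ((u : Qbˣ) : Qb) := rfl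

@[simp]
theorem coe_tUnitsEquivRel_symm (hF : F.IsUnramifiedOutside T)
    (y : (primesAbove K' F (primesOver K' (↑T : Set Nat.Primes))).unit F) :
    ((((tUnitsEquivRel F K' T hF).symm y : tUnits T F.fixingSubgroup) : Qbˣ) : Qb) =
      (((y : Fˣ) : F) : Qb) := rfl

instance normal_fixingSubgroup : F.fixingSubgroup.Normal :=
  normal_fixingSubgroup_of_isGalois F inferInstance

/-- **(UB-3, equivariance)** if `g ∈ Gal(F/K')` is the restriction of `t ∈ G_ℚ`, the action of `t`
on `tUnits` corresponds to `sUnitGal _ g`. -/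
theorem tUnitsEquivRel_map (hF : F.IsUnramifiedOutside T) (t : GQ) (g : Gal(F/K'))
    (hg : ∀ x : F, ((g x : F) : Qb) = t (x : Qb)) (u : tUnits T F.fixingSubgroup) :
    tUnitsEquivRel F K' T hF ⟨Units.map (t : Qb →* Qb) (u : Qbˣ), map_mem_tUnits t u.2⟩ =
      sUnitGal (primesOver K' (↑T : Set Nat.Primes)) g (tUnitsEquivRel F K' T hF u) := by
  apply Subtype.ext
  apply Units.ext
  apply Subtype.ext
  rw [coe_sUnitGal, hg]
  rfl

end UB3

end Fermat.Agent.TW.Euler.UnitBridge
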