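/-
Program G (S56), block GW-Euler, node (UNIT-BRIDGE), part 3 (UB-4): additive / `ℤ`-linear form of
the bridge and transport of eigenspace dimensions after base change to a field `k'`.  helper7.
-/
import Fermat.Agent.TW.Euler.UnitBridge.Relative

set_option autoImplicit false
set_option linter.unusedSectionVars false
set_option linter.style.haveILetI false

open NumberField IsDedekindDomain Module
open Fermat.Agent.CFT Fermat.Agent.CFT.IdeleDict Fermat.Agent.CFT.HerbrandSUnits Fermat.Agent.S55

namespace Fermat.Agent.TW.Euler.UnitBridge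

local notation "Qb" => AlgebraicClosure ℚ
local notation "GQ" => (AlgebraicClosure ℚ ≃ₐ[ℚ] AlgebraicClosure ℚ)

open Fermat.Agent.TW.Euler.Kummer

section Abstract

open TensorProduct

/-- Eigenspace dimensions after base change are invariant under `ℤ`-linear isomorphisms
intertwining the operators. -/
theorem finrank_eigenspace_baseChange_congr {M M' : Type*} [AddCommGroup M] [AddCommGroup M']
    (e : M ≃ₗ[ℤ] M') (f : M →ₗ[ℤ] M) (f' : M' →ₗ[ℤ] M') (h : ∀ x, e (f x) = f' (e x))
    (k' : Type*) [Field k'] (ζ : k') :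
    finrank k' (End.eigenspace (f.baseChange k') ζ) =
      finrank k' (End.eigenspace (f'.baseChange k') ζ) := by
  set E : k' ⊗[ℤ] M ≃ₗ[k'] k' ⊗[ℤ] M' := e.baseChange ℤ k' M M' with hE
  have hcomm : ∀ x, E (f.baseChange k' x) = f'.baseChange k' (E x) := by
    intro x
    induction x using TensorProduct.induction_on with
    | zero => simp
    | tmul a m =>
      simp only [hE, LinearMap.baseChange_tmul, LinearEquiv.baseChange_tmul, h]
    | add x y hx hy => simp only [map_add, hx, hy]
  have hmap : Submodule.map (E : k' ⊗[ℤ] M →ₗ[k'] k' ⊗[ℤ] M') (End.eigenspace (f.baseChange k') ζ) =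
      End.eigenspace (f'.baseChange k') ζ := by
    ext y
    rw [Submodule.mem_map, End.mem_eigenspace_iff]
    constructor
    · rintro ⟨x, hx, rfl⟩
      rw [End.mem_eigenspace_iff] at hx
      show f'.baseChange k' (E x) = ζ • E x
      rw [← hcomm, hx, map_smul]
    · intro hy
      refine ⟨E.symm y, ?_, E.apply_symm_apply y⟩
      rw [End.mem_eigenspace_iff]
      apply E.injective
      rw [hcomm, E.apply_symm_apply, hy, map_smul, E.apply_symm_apply]
  rw [← hmap]
  exact LinearEquiv.finrank_eq (E.submoduleMap (End.eigenspace (f.baseChange k') ζ))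

end Abstract

section Act

variable {T : Finset Nat.Primes} {N : Subgroup GQ} [N.Normal]

/-- The action of `t ∈ G_ℚ` on the `T`-units of the fixed field of a normal subgroup `N`. -/
noncomputable def tUnitsMap (T : Finset Nat.Primes) (N : Subgroup GQ) [N.Normal] (t : GQ) :
    tUnits T N →* tUnits T N where
  toFun u := ⟨Units.map (t : Qb →* Qb) (u : Qbˣ), map_mem_tUnits t u.2⟩
  map_one' := by
    apply Subtype.ext
    apply Units.ext
    show t (1 : Qb) = 1
    exact map_one t
  map_mul' u v := by
    apply Subtype.ext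
    apply Units.ext
    show t (((u : Qbˣ) : Qb) * ((v : Qbˣ) : Qb)) = t ((u : Qbˣ) : Qb) * t ((v : Qbˣ) : Qb)
    exact map_mul t _ _

theorem coe_tUnitsMap (t : GQ) (u : tUnits T N) :
    (((tUnitsMap T N t u : tUnits T N) : Qbˣ) : Qb) = t ((u : Qbˣ) : Qb) := rfl

/-- The `ℤ`-linear form of `tUnitsMap`. -/
noncomputable def tLin (T : Finset Nat.Primes) (N : Subgroup GQ) [N.Normal] (t : GQ) :
    Additive (tUnits T N) →ₗ[ℤ] Additive (tUnits T N) :=
  (MonoidHom.toAdditive (tUnitsMap T N t)).toIntLinearMap

theorem tLin_apply (t : GQ) (x : Additive (tUnits T N)) :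
    tLin T N t x = Additive.ofMul (tUnitsMap T N t (Additive.toMul x)) := rfl

end Act

section Bridge

variable (F : IntermediateField ℚ Qb) [NumberField F] [IsGalois ℚ F]
  (K' : IntermediateField ℚ F) (T : Finset Nat.Primes)

/-- **(UB-4)** the `ℤ`-linear form of the bridge. -/
noncomputable def tUnitsLinEquiv (hF : F.IsUnramifiedOutside T) :
    Additive (tUnits T F.fixingSubgroup) ≃ₗ[ℤ]
      Additive ((primesAbove K' F (primesOver K' (↑T : Set Nat.Primes))).unit F) :=
  (MulEquiv.toAdditive (tUnitsEquivRel F K' T hF)).toIntLinearEquiv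

theorem tUnitsLinEquiv_apply (hF : F.IsUnramifiedOutside T)
    (x : Additive (tUnits T F.fixingSubgroup)) :
    tUnitsLinEquiv F K' T hF x = Additive.ofMul (tUnitsEquivRel F K' T hF (Additive.toMul x)) :=
  rfl

/-- **(UB-4, equivariance)** the bridge intertwines the action of `t ∈ G_ℚ` with
`(sEnd _ g).toIntLinearMap` (= helper18's `sLin _ g`) for `g = t|_F ∈ Gal(F/K')`. -/
theorem tUnitsLinEquiv_tLin (hF : F.IsUnramifiedOutside T) (t : GQ) (g : Gal(F/K'))
    (hg : ∀ x : F, ((g x : F) : Qb) = t (x : Qb)) (x : Additive (tUnits T F.fixingSubgroup)) :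
    tUnitsLinEquiv F K' T hF (tLin T F.fixingSubgroup t x) =
      (sEnd (primesOver K' (↑T : Set Nat.Primes)) g).toIntLinearMap
        (tUnitsLinEquiv F K' T hF x) := by
  show Additive.ofMul (tUnitsEquivRel F K' T hF (tUnitsMap T F.fixingSubgroup t (Additive.toMul x)))
    = Additive.ofMul (sUnitGal (primesOver K' (↑T : Set Nat.Primes)) g
        (tUnitsEquivRel F K' T hF (Additive.toMul x)))
  exact congrArg Additive.ofMul (tUnitsEquivRel_map F K' T hF t g hg (Additive.toMul x))

/-- **(UB-4, consumer form)** eigenspace dimensions of `t` on `k' ⊗ tUnits` = those of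
helper18's `sLin _ g` on `k' ⊗ (T_K-units of F)`. -/
theorem finrank_eigenspace_tLin (hF : F.IsUnramifiedOutside T) (t : GQ) (g : Gal(F/K'))
    (hg : ∀ x : F, ((g x : F) : Qb) = t (x : Qb)) (k' : Type*) [Field k'] (ζ : k') :
    finrank k' (End.eigenspace ((tLin T F.fixingSubgroup t).baseChange k') ζ) =
      finrank k' (End.eigenspace
        (((sEnd (primesOver K' (↑T : Set Nat.Primes)) g).toIntLinearMap).baseChange k') ζ) :=
  finrank_eigenspace_baseChange_congr (tUnitsLinEquiv F K' T hF) _ _
    (tUnitsLinEquiv_tLin F K' T hF t g hg) k' ζ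

/-- The element of `Gal(F/K')` induced by `t ∈ G_ℚ` whose restriction to `F` fixes `K'`. -/
noncomputable def galOf (t : GQ) (ht : AlgEquiv.restrictNormalHom F t ∈ K'.fixingSubgroup) :
    Gal(F/K') :=
  IntermediateField.fixingSubgroupEquiv K' ⟨AlgEquiv.restrictNormalHom F t, ht⟩

theorem coe_galOf (t : GQ) (ht : AlgEquiv.restrictNormalHom F t ∈ K'.fixingSubgroup) (x : F) :
    ((galOf F K' t ht x : F) : Qb) = t (x : Qb) := by
  show ((AlgEquiv.restrictNormalHom F t x : F) : Qb) = t (x : Qb)
  exact AlgEquiv.restrictNormal_commutes t F x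

/-- **(UB-4, consumer form with `galOf`)**. -/
theorem finrank_eigenspace_tLin_galOf (hF : F.IsUnramifiedOutside T) (t : GQ)
    (ht : AlgEquiv.restrictNormalHom F t ∈ K'.fixingSubgroup) (k' : Type*) [Field k'] (ζ : k') :
    finrank k' (End.eigenspace ((tLin T F.fixingSubgroup t).baseChange k') ζ) =
      finrank k' (End.eigenspace
        (((sEnd (primesOver K' (↑T : Set Nat.Primes)) (galOf F K' t ht)).toIntLinearMap).baseChange
          k') ζ) :=
  finrank_eigenspace_tLin F K' T hF t (galOf F K' t ht) (coe_galOf F K' t ht) k' ζ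

end Bridge

end Fermat.Agent.TW.Euler.UnitBridge
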